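import Fermat.Agent.Degen.Forms
import Fermat.Agent.Small2.Duality

/-!
# Depletion of an eigenform at primes of its level

`exists_depleted`: for primes `q ∈ S` dividing the level of a normalised eigenform `f` there is a
form of level `N * ∏ q` with coefficients those of `f` at indices prime to `S` and zero elsewhere,
built by repeatedly subtracting `a_q f(q z)` and using `a (q n) = a q * a n`
(`qCoeff_mul_prime_of_dvd`).
-/

set_option autoImplicit false
set_option linter.unusedSectionVars false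
set_option linter.style.haveILetI false

noncomputable section

open CongruenceSubgroup UpperHalfPlane
open ModularFormClass (qCoeff)

namespace FLTAgent.Lattice46

variable {N M : ℕ} [NeZero N] [NeZero M]

/-- The `q`-expansion of `d f(d z)`. -/
theorem qCoeff_degForm (d : ℕ) [NeZero d] (h : N * d ∣ M) (f : CuspForm (Gamma0 N) 2) (n : ℕ) :
    qCoeff (Degen.degForm d h f) n = if d ∣ n then (d : ℂ) * qCoeff f (n / d) else 0 := by
  have hN := CongruenceSubgroup.one_mem_strictPeriods_Gamma0 N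
  have hM := CongruenceSubgroup.one_mem_strictPeriods_Gamma0 M
  let c : ℕ → ℂ := fun n => if d ∣ n then (d : ℂ) * qCoeff f (n / d) else 0
  refine (ModularFormClass.qExpansion_coeff_unique (f := Degen.degForm d h f) (c := c) one_pos hM
    (fun τ => ?_) n).symm
  have h1 := UpperHalfPlane.hasSum_qExpansion one_pos
    (SlashInvariantFormClass.periodic_comp_ofComplex f hN) (CuspFormClass.holo f)
    (ModularFormClass.bdd_at_infty f) (ModularForm.heckeDiagMatrix d • τ)
  have hq : Function.Periodic.qParam 1 ((ModularForm.heckeDiagMatrix d • τ : ℍ) : ℂ) =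
      Function.Periodic.qParam 1 (τ : ℂ) ^ d := by
    rw [ModularForm.coe_heckeDiagMatrix_smul (NeZero.ne d), Function.Periodic.qParam,
      Function.Periodic.qParam, ← Complex.exp_nat_mul]
    congr 1
    push_cast
    ring
  have hinj : Function.Injective fun m : ℕ => d * m :=
    fun a b hab => Nat.eq_of_mul_eq_mul_left (Nat.pos_of_ne_zero (NeZero.ne d)) hab
  refine (hinj.hasSum_iff fun m hm => ?_).1 ?_
  · rw [show c m = 0 from if_neg fun ⟨k, hk⟩ => hm ⟨k, hk.symm⟩, zero_smul]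
  · rw [Degen.degForm_apply]
    refine (h1.mul_left (d : ℂ)).congr_fun fun m => ?_
    simp only [Function.comp_apply, c]
    rw [if_pos (dvd_mul_right d m), Nat.mul_div_cancel_left m (Nat.pos_of_ne_zero (NeZero.ne d)),
      hq, ← pow_mul, smul_eq_mul, smul_eq_mul, qCoeff, mul_assoc]

/-- Coefficients are linear. -/
theorem qCoeff_sub_smul (f g : CuspForm (Gamma0 N) 2) (c : ℂ) (n : ℕ) :
    qCoeff (⇑(f - c • g : CuspForm (Gamma0 N) 2)) n = qCoeff f n - c * qCoeff g n := by
  show Small2.coeffL n (f - c • g) = Small2.coeffL n f - c * Small2.coeffL n g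
  rw [map_sub, map_smul, smul_eq_mul]

/-- `a (q n) = a q * a n` at a prime of the level. -/
theorem qCoeff_mul_prime_of_dvd {f : CuspForm (Gamma0 N) 2} (hf : f.IsNormalizedEigenform)
    {q : ℕ} (hq : q.Prime) (hqN : q ∣ N) (n : ℕ) :
    qCoeff f (q * n) = qCoeff f q * qCoeff f n := by
  rcases Nat.eq_zero_or_pos n with rfl | hn
  · have h0 : qCoeff f 0 = 0 := Small2.coeffL_zero_index f
    rw [mul_zero, h0, mul_zero]
  obtain ⟨r, m, hm, rfl⟩ := Nat.exists_eq_pow_mul_and_not_dvd hn.ne' q hq.ne_one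
  have hco : ∀ j, (q ^ j).Coprime m := fun j => (hq.coprime_iff_not_dvd.2 hm).pow_left j
  rw [← mul_assoc, ← pow_succ', hf.qCoeff_mul_of_coprime _ _ (hco _),
    hf.qCoeff_mul_of_coprime _ _ (hco _), ← mul_assoc]
  congr 1
  rcases r with _ | r
  · rw [pow_zero, zero_add, pow_one, hf.qCoeff_one, mul_one]
  · exact hf.qCoeff_prime_pow_of_dvd q r hq hqN

/-- An eigenform depleted at a set of primes of its level. -/
theorem exists_depleted {f : CuspForm (Gamma0 N) 2} (hf : f.IsNormalizedEigenform)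
    (S : Finset ℕ) (hS : ∀ q ∈ S, q.Prime ∧ q ∣ N) :
    ∃ g : CuspForm (Gamma0 (N * ∏ q ∈ S, q)) 2, ∀ n, qCoeff g n =
      if ∀ q ∈ S, ¬ q ∣ n then qCoeff f n else 0 := by
  classical
  induction S using Finset.induction with
  | empty =>
    haveI : NeZero (N * ∏ q ∈ (∅ : Finset ℕ), q) := ⟨by simp [NeZero.ne N]⟩
    refine ⟨Degen.degForm (M := N * ∏ q ∈ (∅ : Finset ℕ), q) 1 (by simp) f, fun n => ?_⟩
    rw [if_pos fun q hq => absurd hq (Finset.notMem_empty q)]
    exact congrArg (fun F : ℍ → ℂ => qCoeff F n) (Degen.degForm_one (by simp) f)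
  | insert q S hqS ih =>
    obtain ⟨g, hg⟩ := ih fun r hr => hS r (Finset.mem_insert_of_mem hr)
    obtain ⟨hq, hqN⟩ := hS q (Finset.mem_insert_self q S)
    haveI : NeZero q := ⟨hq.ne_zero⟩
    haveI : NeZero (N * ∏ r ∈ S, r) := ⟨mul_ne_zero (NeZero.ne N)
      (Finset.prod_ne_zero_iff.2 fun r hr => (hS r (Finset.mem_insert_of_mem hr)).1.ne_zero)⟩
    haveI : NeZero (N * ∏ r ∈ insert q S, r) := ⟨mul_ne_zero (NeZero.ne N)
      (Finset.prod_ne_zero_iff.2 fun r hr => (hS r hr).1.ne_zero)⟩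
    have he : (N * ∏ r ∈ S, r) * q ∣ N * ∏ r ∈ insert q S, r :=
      dvd_of_eq (by rw [Finset.prod_insert hqS]; ring)
    have h1 : (N * ∏ r ∈ S, r) * 1 ∣ N * ∏ r ∈ insert q S, r :=
      (Nat.mul_dvd_mul_left _ (one_dvd q)).trans he
    refine ⟨Degen.degForm 1 h1 g - ((qCoeff f q) / (q : ℂ)) • Degen.degForm q he g, fun n => ?_⟩
    rw [qCoeff_sub_smul, qCoeff_degForm, qCoeff_degForm, if_pos (one_dvd n), Nat.div_one,
      Nat.cast_one, one_mul, hg]
    have hiff : (∀ r ∈ insert q S, ¬ r ∣ n) ↔ ¬ q ∣ n ∧ ∀ r ∈ S, ¬ r ∣ n :=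
      Finset.forall_mem_insert _ _ _
    by_cases hqn : q ∣ n
    · obtain ⟨m, rfl⟩ := hqn
      have hiff' : (∀ r ∈ S, ¬ r ∣ q * m) ↔ ∀ r ∈ S, ¬ r ∣ m := by
        refine forall₂_congr fun r hr => not_congr ?_
        obtain ⟨hr', -⟩ := hS r (Finset.mem_insert_of_mem hr)
        exact ⟨fun h => (hr'.dvd_mul.1 h).resolve_left fun h' =>
          hqS ((Nat.prime_dvd_prime_iff_eq hr' hq).1 h' ▸ hr), fun h => h.mul_left q⟩
      rw [if_pos (dvd_mul_right q m), Nat.mul_div_cancel_left m hq.pos, hg,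
        if_neg (fun h => (hiff.1 h).1 (dvd_mul_right q m)), qCoeff_mul_prime_of_dvd hf hq hqN]
      by_cases hc : ∀ r ∈ S, ¬ r ∣ m
      · rw [if_pos (hiff'.2 hc), if_pos hc, ← mul_assoc,
          div_mul_cancel₀ _ (Nat.cast_ne_zero.2 hq.ne_zero), sub_self]
      · rw [if_neg (hc ∘ hiff'.1), if_neg hc, mul_zero, mul_zero, sub_self]
    · rw [if_neg hqn, mul_zero, sub_zero]
      by_cases hc : ∀ r ∈ S, ¬ r ∣ n
      · rw [if_pos hc, if_pos (hiff.2 ⟨hqn, hc⟩)]
      · rw [if_neg hc, if_neg fun h => hc (hiff.1 h).2]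

end FLTAgent.Lattice46
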