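import Mathlib
import Fermat.Prelude.Def_FormalHecke_Eigensystem

/-!
# The formal Hecke sequence with prescribed values at the primes

`mkSeq e b` is multiplicative, equal to `b p` at a prime `p`, and satisfies the Hecke recursion
with parameters `e` (`isEigensystem_mkSeq`). Parameters congruent modulo `d` give congruent
sequences (`dvd_mkSeq_sub`).
-/

set_option autoImplicit false

namespace FLTAgent.Lattice46

variable {R : Type*} [CommRing R] (e b : ℕ → R)

/-- The values at the powers of `p`. -/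
def powSeq (p : ℕ) : ℕ → R
  | 0 => 1
  | 1 => b p
  | r + 2 => b p * powSeq p (r + 1) - e p * powSeq p r

/-- The multiplicative sequence. -/
def mkSeq (n : ℕ) : R :=
  if n = 0 then 0 else n.factorization.prod fun p r => powSeq e b p r

theorem mkSeq_zero : mkSeq e b 0 = 0 := if_pos rfl

theorem mkSeq_one : mkSeq e b 1 = 1 := by
  rw [mkSeq, if_neg one_ne_zero, Nat.factorization_one, Finsupp.prod_zero_index]

theorem mkSeq_mul {m n : ℕ} (h : m.Coprime n) : mkSeq e b (m * n) = mkSeq e b m * mkSeq e b n := by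
  rcases eq_or_ne m 0 with rfl | hm
  · rw [zero_mul, mkSeq_zero, zero_mul]
  rcases eq_or_ne n 0 with rfl | hn
  · rw [mul_zero, mkSeq_zero, mul_zero]
  rw [mkSeq, mkSeq, mkSeq, if_neg (mul_ne_zero hm hn), if_neg hm, if_neg hn,
    Nat.factorization_mul hm hn,
    Finsupp.prod_add_index_of_disjoint (by
      simpa only [Nat.support_factorization] using h.disjoint_primeFactors)]

theorem mkSeq_pow {p : ℕ} (hp : p.Prime) (r : ℕ) : mkSeq e b (p ^ r) = powSeq e b p r := by
  rw [mkSeq, if_neg (pow_ne_zero r hp.ne_zero), hp.factorization_pow,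
    Finsupp.prod_single_index]
  rfl

theorem mkSeq_prime {p : ℕ} (hp : p.Prime) : mkSeq e b p = b p := by
  rw [← pow_one p, mkSeq_pow e b hp, pow_one]
  rfl

/-- It satisfies the Hecke relations. -/
theorem isEigensystem_mkSeq : FormalHecke.IsEigensystem e (mkSeq e b) := by
  refine ⟨mkSeq_one e b, fun ℓ hℓ n => ?_⟩
  rcases Nat.eq_zero_or_pos n with rfl | hn
  · simp [mkSeq_zero]
  obtain ⟨r, m, hm, rfl⟩ := Nat.exists_eq_pow_mul_and_not_dvd hn.ne' ℓ hℓ.ne_one
  have hco : ∀ j, (ℓ ^ j).Coprime m := fun j => (hℓ.coprime_iff_not_dvd.2 hm).pow_left j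
  rw [← mul_assoc, ← pow_succ', mkSeq_mul e b (hco _), mkSeq_mul e b (hco _), mkSeq_prime e b hℓ,
    mkSeq_pow e b hℓ, mkSeq_pow e b hℓ]
  rcases r with _ | r
  · rw [pow_zero, one_mul, if_neg hm, mul_zero, add_zero]
    simp [powSeq]
  · rw [if_pos (dvd_mul_of_dvd_left (dvd_pow_self ℓ r.succ_ne_zero) m), pow_succ', mul_assoc,
      Nat.mul_div_cancel_left _ hℓ.pos, mkSeq_mul e b (hco _), mkSeq_pow e b hℓ]
    show (b ℓ * powSeq e b ℓ (r + 1) - e ℓ * powSeq e b ℓ r) * mkSeq e b m +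
        e ℓ * (powSeq e b ℓ r * mkSeq e b m) = b ℓ * (powSeq e b ℓ (r + 1) * mkSeq e b m)
    ring

/-- Congruent data give congruent sequences. -/
theorem dvd_mkSeq_sub {e e' b : ℕ → ℤ} {d : ℤ} (he : ∀ p : ℕ, p.Prime → d ∣ e p - e' p) (n : ℕ) :
    d ∣ mkSeq e b n - mkSeq e' b n := by
  suffices h : ((mkSeq e b n : ℤ) : ZMod d.natAbs) = ((mkSeq e' b n : ℤ) : ZMod d.natAbs) by
    rw [ZMod.intCast_eq_intCast_iff_dvd_sub, Int.natAbs_dvd] at h
    exact (dvd_sub_comm).1 h
  have hpow : ∀ p : ℕ, p.Prime → ∀ r, ((powSeq e b p r : ℤ) : ZMod d.natAbs) =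
      ((powSeq e' b p r : ℤ) : ZMod d.natAbs) := by
    intro p hp r
    have hep : ((e p : ℤ) : ZMod d.natAbs) = ((e' p : ℤ) : ZMod d.natAbs) := by
      rw [ZMod.intCast_eq_intCast_iff_dvd_sub, Int.natAbs_dvd]
      exact (dvd_sub_comm).1 (he p hp)
    induction r using Nat.twoStepInduction with
    | zero => simp [powSeq]
    | one => simp [powSeq]
    | more r ih1 ih2 => simp [powSeq, hep, ih1, ih2]
  unfold mkSeq
  split_ifs with hn
  · rfl
  · rw [Finsupp.prod, Finsupp.prod, Int.cast_prod, Int.cast_prod]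
    exact Finset.prod_congr rfl fun p hp =>
      hpow p (Nat.prime_of_mem_primeFactors (by rwa [Nat.support_factorization] at hp)) _

end FLTAgent.Lattice46
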