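import Fermat.Agent.Lattice46.Depletion
import Fermat.Agent.Lattice46.Seq
import Fermat.Agent.Small2.Lifting
import Fermat.Agent.IntStr.Main

/-!
# A lattice-realised eigensystem congruent to a modular curve modulo 3

`exists_latticeRealized`: if `W` is modular of a squarefree level `N₀` containing its bad primes,
then at level `N = N₀ * N₀` some eigensystem is lattice-realised and congruent modulo 3 to
`a_ℓ(W)` at the good primes `ℓ ∤ 3N`.
The form depleted at all primes of `N₀` has as coefficients a formal Hecke sequence (`mkSeq`),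
congruent modulo 3 to the sequence with the character `chiNegThree`.
-/

set_option autoImplicit false
set_option linter.style.haveILetI false

noncomputable section

open CongruenceSubgroup EisensteinWeightOne
open ModularFormClass (qCoeff)

namespace FLTAgent.Lattice46

/-- **S46 from modularity at a squarefree level containing the bad primes.** -/
theorem exists_latticeRealized (W : WeierstrassCurve ℤ) {N₀ : ℕ} (hN : Squarefree N₀)
    (hbad : ∀ q : ℕ, q.Prime → (q : ℤ) ∣ W.Δ → q ∣ N₀) (hmod : W.IsModularModelOfLevel N₀) :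
    ∃ (N : ℕ) (_ : NeZero N) (a : ℕ → ℤ),
      CuspForm.HasIntegralBasis N ∧
      FormalHecke.IsEigensystem
        (fun ℓ => if ℓ ∣ N then 0 else ((chiNegThree ℓ : ℤ) : ℤ)) a ∧
      CuspForm.IsLatticeRealized N a ∧
      (∀ q : ℕ, q.Prime → q ≠ 3 → ¬ q ^ 3 ∣ N) ∧
      ∀ ℓ : ℕ, ℓ.Prime → W.IsGoodPrimeFor ℓ → ¬ ℓ ∣ N → ℓ ≠ 3 →
        (3 : ℤ) ∣ (a ℓ - W.apOfModel ℓ) := by
  classical
  obtain ⟨f, hf, hfW⟩ := hmod
  haveI : NeZero N₀ := ⟨hN.ne_zero⟩
  have hprimes : ∀ q ∈ N₀.primeFactors, q.Prime ∧ q ∣ N₀ := fun q hq =>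
    ⟨Nat.prime_of_mem_primeFactors hq, Nat.dvd_of_mem_primeFactors hq⟩
  have hdep := exists_depleted hf N₀.primeFactors hprimes
  rw [Nat.prod_primeFactors_of_squarefree hN] at hdep
  obtain ⟨g, hg⟩ := hdep
  generalize hMdef : N₀ * N₀ = M at g hg
  haveI : NeZero M := ⟨hMdef ▸ mul_ne_zero (NeZero.ne N₀) (NeZero.ne N₀)⟩
  have hdvd : ∀ q : ℕ, q.Prime → (q ∣ M ↔ q ∣ N₀) := fun q hq => by
    rw [← hMdef, hq.dvd_mul, or_self]
  let b : ℕ → ℤ := fun p => if p ∣ M then 0 else W.apOfModel p
  let e : ℕ → ℤ := fun ℓ => if ℓ ∣ M then 0 else ((chiNegThree ℓ : ℤ) : ℤ)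
  let e' : ℕ → ℤ := fun ℓ => if ℓ ∣ M then 0 else (ℓ : ℤ)
  refine ⟨M, inferInstance, mkSeq e b, IntStr.hasIntegralBasis M, isEigensystem_mkSeq e b, ?_, ?_,
    fun ℓ hℓ _ hℓM _ => ?_⟩
  · -- the depleted form realises it
    have hcoeff : ∀ n, qCoeff g n = ((mkSeq e' b n : ℤ) : ℂ) := by
      intro n
      induction n using Nat.recOnPosPrimePosCoprime with
      | prime_pow p r hp hr =>
        rw [hg, mkSeq_pow e' b hp]
        by_cases hpN : p ∣ N₀
        · have hpM : p ∣ M := (hdvd p hp).2 hpN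
          rw [if_neg fun h => h p (Nat.mem_primeFactors.2 ⟨hp, hpN, NeZero.ne N₀⟩)
            (dvd_pow_self p hr.ne')]
          obtain ⟨r, rfl⟩ := Nat.exists_eq_succ_of_ne_zero hr.ne'
          rcases r with _ | r
          · simp [powSeq, b, hpM]
          · simp [powSeq, b, e', hpM]
        · have hpM : ¬ p ∣ M := fun h => hpN ((hdvd p hp).1 h)
          have hgood : W.IsGoodPrimeFor p := fun h => hpN (hbad p hp h)
          rw [if_pos fun q hq hd => hpN ((Nat.prime_dvd_prime_iff_eq (hprimes q hq).1 hp).1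
            ((hprimes q hq).1.dvd_of_dvd_pow hd) ▸ (hprimes q hq).2)]
          clear hr
          induction r using Nat.twoStepInduction with
          | zero => simp [powSeq, hf.qCoeff_one]
          | one => simp [powSeq, b, hpM, hfW p hp hgood hpN]
          | more r ih1 ih2 =>
            rw [hf.qCoeff_prime_pow_of_not_dvd p r hp hpN, ih1, ih2, hfW p hp hgood hpN]
            simp [powSeq, b, e', hpM]
      | zero =>
        rw [mkSeq_zero, Int.cast_zero]
        exact Small2.coeffL_zero_index g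
      | one =>
        rw [hg, mkSeq_one, Int.cast_one,
          if_pos fun q hq hd => (hprimes q hq).1.one_lt.ne' (Nat.dvd_one.1 hd), hf.qCoeff_one]
      | coprime m n _ _ hco ihm ihn =>
        rw [mkSeq_mul e' b hco, Int.cast_mul, ← ihm, ← ihn, hg, hg, hg,
          hf.qCoeff_mul_of_coprime m n hco]
        have hiff : (∀ q ∈ N₀.primeFactors, ¬ q ∣ m * n) ↔
            (∀ q ∈ N₀.primeFactors, ¬ q ∣ m) ∧ ∀ q ∈ N₀.primeFactors, ¬ q ∣ n :=
          ⟨fun h => ⟨fun q hq hd => h q hq (hd.mul_right n), fun q hq hd => h q hq (hd.mul_left m)⟩,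
            fun h q hq hd => ((hprimes q hq).1.dvd_mul.1 hd).elim (h.1 q hq) (h.2 q hq)⟩
        by_cases hm : ∀ q ∈ N₀.primeFactors, ¬ q ∣ m
        · by_cases hn : ∀ q ∈ N₀.primeFactors, ¬ q ∣ n
          · rw [if_pos hm, if_pos hn, if_pos (hiff.2 ⟨hm, hn⟩)]
          · rw [if_neg hn, if_neg fun h => hn (hiff.1 h).2, mul_zero]
        · rw [if_neg hm, if_neg fun h => hm (hiff.1 h).1, zero_mul]
    refine ⟨g, fun n => ?_, mkSeq e' b, fun n => (hcoeff n).symm, fun n => ?_⟩
    · rw [hcoeff n]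
      exact intCast_mem _ _
    · have h1 : (3 : ℤ) ∣ mkSeq e' b n - mkSeq e b n := by
        refine dvd_mkSeq_sub (fun p hp => ?_) n
        simp only [e, e']
        split_ifs
        · simp
        · exact (dvd_sub_comm).1 (Small2.chiNegThree_three p)
      have h2 := Small2.three_dvd_bridgeProduct_sub (mkSeq e b) n
      have h3 := dvd_sub h1 h2
      rwa [show mkSeq e' b n - mkSeq e b n -
        ((bridgeProduct (mkSeq e b)).coeff n - mkSeq e b n) =
          mkSeq e' b n - (bridgeProduct (mkSeq e b)).coeff n by ring] at h3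
  · intro q hq _ hd
    have h2 : q ^ 3 ∣ N₀ ^ 2 := by rwa [sq, hMdef]
    have hle := (Nat.factorization_le_iff_dvd (pow_ne_zero 3 hq.ne_zero)
      (pow_ne_zero 2 (NeZero.ne N₀))).2 h2 q
    rw [hq.factorization_pow, Finsupp.single_eq_same, Nat.factorization_pow, Finsupp.smul_apply,
      smul_eq_mul] at hle
    have := hN.natFactorization_le_one q
    omega
  · rw [mkSeq_prime e b hℓ]
    simp [b, hℓM]

end FLTAgent.Lattice46
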